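/-
Program ORD (S33), brick N1 = New/FunctionalOfGeo (helper51), ABSTRACT CORE
(Mathlib + ES/J/TateModule13 only).

Setting: `J` an abelian group with an action of a group `G`, `p` a prime with `J[p]` finite (so that
`T = TateModule p J` is finite free over `ℤ_[p]`), `I ⊆ G` ("inertia"), subgroups `J1 ≤ J0 ≤ J`
("kernel of reduction" inside "identity component"), `push : J →+ J'` with

* (G2) `(s - 1) x ∈ J0` for `s ∈ I`, `x` of `p`-power order;
* (G3) `(s - 1) x ∈ J1` for `s ∈ I`, `x ∈ J0` of `p`-power order;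
* (G4) `σ0 x = c0 x` for `x ∈ J1`, `p x = 0`, `push x = 0`.

`tateSub J1 = {x ∈ T | all proj k x ∈ J1}` (the plan's `T^c`) is saturated and contains
`(s - 1)(s' - 1) T` for `s, s' ∈ I`.

MAIN THEOREM `exists_invariant_functional`: let `A` be a flat local `ℤ_[p]`-domain with
`p ∈ 𝔪_A`, and `Λ ⊆ A ⊗ T` an `A`-submodule, stable under `I`, `p`-saturated, killed by `push`, on
which `σ0` does NOT act as the scalar `c0` modulo `𝔪_A Λ`.  Then there is an `A`-linear functional
on `A ⊗ T` which is nonzero on `Λ` and `I`-invariant on `Λ`.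
-/
import Mathlib
import Fermat.Agent.ES.J.TateModule13

set_option autoImplicit false
set_option linter.unusedSectionVars false

open TensorProduct

noncomputable section

namespace Fermat.Agent.ORD.New.FunctionalOfGeo51

open Fermat.Agent.ES.J.TateModule13

variable {p : ℕ} [hp : Fact p.Prime] {J : Type*} [AddCommGroup J]

/-! ### The submodule `T^c` of the Tate module cut out by a subgroup -/

/-- The submodule of the Tate module of sequences all of whose terms lie in `J1`. -/
def tateSub (J1 : AddSubgroup J) : Submodule ℤ_[p] (TateModule p J) where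
  carrier := {x | ∀ k, proj k x ∈ J1}
  zero_mem' := fun k => by
    rw [map_zero]
    exact J1.zero_mem
  add_mem' := fun {x y} hx hy k => by
    rw [map_add]
    exact J1.add_mem (hx k) (hy k)
  smul_mem' := fun a x hx k => by
    rw [proj_smul]
    exact J1.nsmul_mem (hx k) _

theorem mem_tateSub {J1 : AddSubgroup J} {x : TateModule p J} :
    x ∈ tateSub J1 ↔ ∀ k, proj k x ∈ J1 := Iff.rfl

/-- `T^c` is `p`-saturated. -/
theorem mem_of_p_smul_mem {J1 : AddSubgroup J} {x : TateModule p J}
    (h : (p : ℤ_[p]) • x ∈ tateSub J1) : x ∈ tateSub J1 := by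
  intro k
  have := h (k + 1)
  rw [proj_natCast_smul, proj_succ] at this
  exact this

theorem mem_of_pow_smul_mem {J1 : AddSubgroup J} {x : TateModule p J} (n : ℕ)
    (h : ((p : ℤ_[p]) ^ n) • x ∈ tateSub J1) : x ∈ tateSub J1 := by
  induction n with
  | zero => rwa [pow_zero, one_smul] at h
  | succ n ih =>
    apply ih
    apply mem_of_p_smul_mem
    rwa [← mul_smul, ← pow_succ']

/-- `T^c` is saturated. -/
theorem mem_of_smul_mem {J1 : AddSubgroup J} {a : ℤ_[p]} (ha : a ≠ 0) {x : TateModule p J}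
    (h : a • x ∈ tateSub J1) : x ∈ tateSub J1 := by
  obtain ⟨u, hu⟩ : ∃ u : ℤ_[p]ˣ, a = u * (p : ℤ_[p]) ^ a.valuation :=
    ⟨PadicInt.unitCoeff ha, PadicInt.unitCoeff_spec ha⟩
  apply mem_of_pow_smul_mem a.valuation
  have h2 := (tateSub J1).smul_mem ((u⁻¹ : ℤ_[p]ˣ) : ℤ_[p]) h
  rwa [← mul_smul, hu, ← mul_assoc, Units.inv_mul, one_mul] at h2

/-- The quotient `T / T^c` is torsion-free. -/
instance isTorsionFree_quotient (J1 : AddSubgroup J) :
    Module.IsTorsionFree ℤ_[p] (TateModule p J ⧸ tateSub J1) := by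
  apply Module.IsTorsionFree.of_smul_eq_zero
  intro a m h
  by_cases ha : a = 0
  · exact Or.inl ha
  · right
    obtain ⟨x, rfl⟩ := Submodule.Quotient.mk_surjective _ m
    rw [← Submodule.Quotient.mk_smul, Submodule.Quotient.mk_eq_zero] at h
    rw [Submodule.Quotient.mk_eq_zero]
    exact mem_of_smul_mem ha h

/-! ### Inertia acts through a two-step filtration modulo `T^c` -/

section Action

variable {G : Type*} [Group G] [DistribMulAction G J]

theorem sub_one_sub_one_mem (J0 J1 : AddSubgroup J) (s s' : G)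
    (h2 : ∀ x : J, (∃ k : ℕ, p ^ k • x = 0) → s' • x - x ∈ J0)
    (h3 : ∀ x ∈ J0, (∃ k : ℕ, p ^ k • x = 0) → s • x - x ∈ J1) (x : TateModule p J) :
    (rho p J s - 1) ((rho p J s' - 1) x) ∈ tateSub J1 := by
  intro k
  have e : proj k ((rho p J s - 1) ((rho p J s' - 1) x)) =
      s • (s' • proj k x - proj k x) - (s' • proj k x - proj k x) := by
    simp only [LinearMap.sub_apply, Module.End.one_apply, map_sub, proj_rho, smul_sub]
    abel
  rw [e]
  have hx : p ^ k • proj k x = 0 := pow_smul_proj k x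
  refine h3 _ (h2 _ ⟨k, hx⟩) ⟨k, ?_⟩
  rw [smul_sub, smul_comm, hx, smul_zero, sub_zero]

end Action

/-! ### Tensor lemmas -/

section Tensor

variable {R : Type*} [CommRing R] {A : Type*} [CommRing A] [Algebra R A]
  {M N : Type*} [AddCommGroup M] [Module R M] [AddCommGroup N] [Module R N]

/-- Flat base change commutes with kernels. -/
theorem exists_of_baseChange_eq_zero [Module.Flat R A] (f : M →ₗ[R] N) (x : A ⊗[R] M)
    (hx : f.baseChange A x = 0) :
    ∃ μ : A ⊗[R] (LinearMap.ker f), (LinearMap.ker f).subtype.baseChange A μ = x := by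
  have hex : Function.Exact (LinearMap.ker f).subtype f := LinearMap.exact_subtype_ker_map f
  have h := Module.Flat.lTensor_exact A hex
  have hx' : f.lTensor A x = 0 := by
    rw [← hx]
    exact (congrFun (LinearMap.baseChange_eq_ltensor (A := A) f) x).symm
  obtain ⟨μ, hμ⟩ := (h x).mp hx'
  exact ⟨μ, (congrFun (LinearMap.baseChange_eq_ltensor (A := A) _) μ).trans hμ⟩

/-- Multiplication by `r` on a module. -/
def rmul (r : R) (M : Type*) [AddCommGroup M] [Module R M] : M →ₗ[R] M :=
  r • (LinearMap.id : M →ₗ[R] M)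

/-- Base change commutes with reduction modulo `r`. -/
theorem exists_of_baseChange_mkQ_eq_zero (r : R) (y : A ⊗[R] M)
    (hy : (LinearMap.range (rmul r M)).mkQ.baseChange A y = 0) :
    ∃ μ : A ⊗[R] M, y = algebraMap R A r • μ := by
  have hex : Function.Exact (rmul r M) (LinearMap.range (rmul r M)).mkQ :=
    LinearMap.exact_map_mkQ_range _
  have h := lTensor_exact A hex (Submodule.mkQ_surjective _)
  have hy' : (LinearMap.range (rmul r M)).mkQ.lTensor A y = 0 := by
    rw [← hy]
    exact (congrFun (LinearMap.baseChange_eq_ltensor (A := A) _) y).symm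
  obtain ⟨μ, hμ⟩ := (h y).mp hy'
  refine ⟨μ, ?_⟩
  rw [← hμ, rmul, LinearMap.lTensor_smul, LinearMap.lTensor_id, LinearMap.smul_apply,
    LinearMap.id_apply, algebraMap_smul]

end Tensor

/-! ### The main theorem -/

section Main

variable {J' : Type*} [AddCommGroup J'] {G : Type*} [Group G] [DistribMulAction G J]

local notation "tmap" => Fermat.Agent.ES.J.TateModule13.map

/-- (G4) on the Tate module: on `T^c ∩ push⁻¹(p T')` the operator `σ0 - c0` has values in `p T`. -/
theorem sub_smul_mem_range (J1 : AddSubgroup J) (push : J →+ J') (σ0 : G) (c0 : ℕ)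
    (hG4 : ∀ x ∈ J1, p • x = 0 → push x = 0 → σ0 • x = c0 • x)
    (x : TateModule p J) (hx : x ∈ tateSub J1)
    (hpx : tmap push x ∈ LinearMap.range (rmul (p : ℤ_[p]) (TateModule p J'))) :
    (rho p J σ0 - (c0 : ℤ_[p]) • (1 : Module.End ℤ_[p] (TateModule p J))) x ∈
      LinearMap.range (rmul (p : ℤ_[p]) (TateModule p J)) := by
  obtain ⟨y, hy⟩ := hpx
  have hy' : tmap push x = (p : ℤ_[p]) • y := by
    rw [← hy]; rfl
  have h1 : push (proj 1 x) = 0 := by
    rw [← proj_map, hy', proj_natCast_smul, proj_succ]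
    exact y.zero_apply'
  have h2 : p • proj 1 x = 0 := by
    have := pow_smul_proj 1 x
    rwa [pow_one] at this
  have h3 := hG4 _ (hx 1) h2 h1
  have h4 : proj 1 ((rho p J σ0 - (c0 : ℤ_[p]) • (1 : Module.End ℤ_[p] (TateModule p J))) x)
      = 0 := by
    simp only [LinearMap.sub_apply, LinearMap.smul_apply, Module.End.one_apply, map_sub,
      proj_rho, proj_natCast_smul]
    rw [h3, sub_self]
  obtain ⟨z, hz⟩ := (proj_eq_zero_iff 1 _).mp h4
  refine ⟨z, ?_⟩
  rw [hz, pow_one]
  rfl

variable [Module.Finite ℤ_[p] (TateModule p J)]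
  {A : Type*} [CommRing A] [IsDomain A] [Algebra ℤ_[p] A] [Module.Flat ℤ_[p] A] [IsLocalRing A]

/-- **N1, abstract core**: a nonzero inertia-invariant functional on a new eigen-submodule. -/
theorem exists_invariant_functional
    (hpA : (p : A) ∈ IsLocalRing.maximalIdeal A)
    (I : Set G) (J0 J1 : AddSubgroup J) (push : J →+ J')
    (hG2 : ∀ s ∈ I, ∀ x : J, (∃ k : ℕ, p ^ k • x = 0) → s • x - x ∈ J0)
    (hG3 : ∀ s ∈ I, ∀ x ∈ J0, (∃ k : ℕ, p ^ k • x = 0) → s • x - x ∈ J1)
    (σ0 : G) (hσ0 : σ0 ∈ I) (c0 : ℕ)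
    (hG4 : ∀ x ∈ J1, p • x = 0 → push x = 0 → σ0 • x = c0 • x)
    (Λ : Submodule A (A ⊗[ℤ_[p]] TateModule p J))
    (hstab : ∀ s ∈ I, ∀ x ∈ Λ, (rho p J s).baseChange A x ∈ Λ)
    (hsat : ∀ x, (p : A) • x ∈ Λ → x ∈ Λ)
    (hpush : ∀ x ∈ Λ, (tmap push).baseChange A x = 0)
    (hns : ¬ ∀ x ∈ Λ, (rho p J σ0).baseChange A x - (c0 : A) • x ∈
      IsLocalRing.maximalIdeal A • Λ) :
    ∃ lam : (A ⊗[ℤ_[p]] TateModule p J) →ₗ[A] A, (∃ x ∈ Λ, lam x ≠ 0) ∧
      ∀ s ∈ I, ∀ x ∈ Λ, lam ((rho p J s).baseChange A x) = lam x := by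
  classical
  let Tc : Submodule ℤ_[p] (TateModule p J) := tateSub J1
  let q : TateModule p J →ₗ[ℤ_[p]] (TateModule p J ⧸ Tc) := Tc.mkQ
  have hker_q : LinearMap.ker q = Tc := Submodule.ker_mkQ Tc
  -- Step 1: `Λ` is not contained in the kernel of `A ⊗ q`.
  have h1 : ∃ l0 ∈ Λ, q.baseChange A l0 ≠ 0 := by
    by_contra hcon
    push Not at hcon
    apply hns
    intro x hx
    -- `x` comes from `A ⊗ T^c`
    obtain ⟨μ, hμ⟩ := exists_of_baseChange_eq_zero q x (hcon x hx)
    -- the push of `μ` modulo `p`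
    let π' := (LinearMap.range (rmul (p : ℤ_[p]) (TateModule p J'))).mkQ
    let Rm : LinearMap.ker q →ₗ[ℤ_[p]] _ := π' ∘ₗ (tmap push) ∘ₗ (LinearMap.ker q).subtype
    have hRm : Rm.baseChange A μ = 0 := by
      have e : Rm.baseChange A μ =
          π'.baseChange A ((tmap push).baseChange A ((LinearMap.ker q).subtype.baseChange A μ)) := by
        show (π' ∘ₗ (tmap push) ∘ₗ (LinearMap.ker q).subtype).baseChange A μ = _
        rw [LinearMap.baseChange_comp, LinearMap.baseChange_comp]
        rfl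
      rw [e, hμ, hpush x hx, map_zero]
    obtain ⟨ν, hν⟩ := exists_of_baseChange_eq_zero Rm μ hRm
    -- the operator `σ0 - c0`
    let E : Module.End ℤ_[p] (TateModule p J) :=
      rho p J σ0 - (c0 : ℤ_[p]) • (1 : Module.End ℤ_[p] (TateModule p J))
    let π := (LinearMap.range (rmul (p : ℤ_[p]) (TateModule p J))).mkQ
    have hzero : π ∘ₗ E ∘ₗ (LinearMap.ker q).subtype ∘ₗ (LinearMap.ker Rm).subtype = 0 := by
      apply LinearMap.ext
      intro z
      have hz1 : ((z : LinearMap.ker q) : TateModule p J) ∈ tateSub J1 := by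
        have h0 : q ((z : LinearMap.ker q) : TateModule p J) = 0 := (z : LinearMap.ker q).2
        exact (Submodule.Quotient.mk_eq_zero Tc).mp h0
      have hz2 : tmap push ((z : LinearMap.ker q) : TateModule p J) ∈
          LinearMap.range (rmul (p : ℤ_[p]) (TateModule p J')) := by
        have := z.2
        rw [LinearMap.mem_ker] at this
        exact (Submodule.Quotient.mk_eq_zero _).mp this
      have := sub_smul_mem_range J1 push σ0 c0 hG4 _ hz1 hz2
      exact (Submodule.Quotient.mk_eq_zero _).mpr this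
    have hEx : π.baseChange A (E.baseChange A x) = 0 := by
      rw [← hμ, ← hν]
      have e : π.baseChange A (E.baseChange A ((LinearMap.ker q).subtype.baseChange A
          ((LinearMap.ker Rm).subtype.baseChange A ν))) =
          (π ∘ₗ E ∘ₗ (LinearMap.ker q).subtype ∘ₗ (LinearMap.ker Rm).subtype).baseChange A ν := by
        rw [LinearMap.baseChange_comp, LinearMap.baseChange_comp, LinearMap.baseChange_comp]
        rfl
      rw [e, hzero, LinearMap.baseChange_zero, LinearMap.zero_apply]
    obtain ⟨μ', hμ'⟩ := exists_of_baseChange_mkQ_eq_zero (p : ℤ_[p]) _ hEx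
    have hEx' : E.baseChange A x = (rho p J σ0).baseChange A x - (c0 : A) • x := by
      show (rho p J σ0 - (c0 : ℤ_[p]) • (1 : Module.End ℤ_[p] (TateModule p J))).baseChange A x = _
      rw [LinearMap.baseChange_sub, LinearMap.baseChange_smul, LinearMap.sub_apply,
        LinearMap.smul_apply]
      congr 1
      have : (1 : Module.End ℤ_[p] (TateModule p J)).baseChange A x = x := by
        show (LinearMap.id : TateModule p J →ₗ[ℤ_[p]] TateModule p J).baseChange A x = x
        rw [LinearMap.baseChange_id]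
        rfl
      rw [this, ← algebraMap_smul A (c0 : ℤ_[p]) x, map_natCast]
    have hp' : algebraMap ℤ_[p] A (p : ℤ_[p]) = (p : A) := map_natCast _ _
    rw [hp'] at hμ'
    have hmem : E.baseChange A x ∈ Λ := by
      rw [hEx']
      exact Λ.sub_mem (hstab σ0 hσ0 x hx) (Λ.smul_mem _ hx)
    have hμ'Λ : μ' ∈ Λ := hsat μ' (hμ' ▸ hmem)
    rw [← hEx', hμ']
    exact Submodule.smul_mem_smul hpA hμ'Λ
  obtain ⟨l0, hl0, hq0⟩ := h1
  -- Step 2: a coordinate of `A ⊗ (T / T^c)` which does not vanish at `l0`.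
  haveI : Module.Finite ℤ_[p] (TateModule p J ⧸ Tc) := inferInstance
  haveI : Module.Free ℤ_[p] (TateModule p J ⧸ Tc) := Module.free_of_finite_type_torsion_free'
  let b := Module.Free.chooseBasis A (A ⊗[ℤ_[p]] (TateModule p J ⧸ Tc))
  obtain ⟨i, hi⟩ : ∃ i, b.repr (q.baseChange A l0) i ≠ 0 := by
    by_contra h
    push Not at h
    apply hq0
    apply b.repr.injective
    ext i
    rw [h i, map_zero, Finsupp.zero_apply]
  let φ : (A ⊗[ℤ_[p]] TateModule p J) →ₗ[A] A := (b.coord i) ∘ₗ (q.baseChange A)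
  have hφ0 : φ l0 ≠ 0 := hi
  -- `φ` kills `(s - 1)(s' - 1)`
  have hkey : ∀ s ∈ I, ∀ s' ∈ I, ∀ m : A ⊗[ℤ_[p]] TateModule p J,
      φ ((rho p J s).baseChange A ((rho p J s').baseChange A m) - (rho p J s').baseChange A m
        - ((rho p J s).baseChange A m - m)) = 0 := by
    intro s hs s' hs' m
    have hz : q ∘ₗ (rho p J s - 1) ∘ₗ (rho p J s' - 1) = 0 := by
      apply LinearMap.ext
      intro x
      exact (Submodule.Quotient.mk_eq_zero _).mpr
        (sub_one_sub_one_mem J0 J1 s s' (hG2 s' hs') (hG3 s hs) x)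
    have e : (rho p J s).baseChange A ((rho p J s').baseChange A m)
        - (rho p J s').baseChange A m - ((rho p J s).baseChange A m - m) =
        ((rho p J s - 1).baseChange A) (((rho p J s' - 1).baseChange A) m) := by
      have h1' : ∀ (g : G) (y : A ⊗[ℤ_[p]] TateModule p J),
          (rho p J g - 1).baseChange A y = (rho p J g).baseChange A y - y := by
        intro g y
        rw [LinearMap.baseChange_sub, LinearMap.sub_apply]
        congr 1
        show (LinearMap.id : TateModule p J →ₗ[ℤ_[p]] TateModule p J).baseChange A y = y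
        rw [LinearMap.baseChange_id]
        rfl
      rw [h1', h1', map_sub]
      abel
    rw [e]
    show (b.coord i) (q.baseChange A (((rho p J s - 1).baseChange A)
      (((rho p J s' - 1).baseChange A) m))) = 0
    have e2 : q.baseChange A (((rho p J s - 1).baseChange A)
        (((rho p J s' - 1).baseChange A) m)) =
        (q ∘ₗ (rho p J s - 1) ∘ₗ (rho p J s' - 1)).baseChange A m := by
      rw [LinearMap.baseChange_comp, LinearMap.baseChange_comp]
      rfl
    rw [e2, hz, LinearMap.baseChange_zero, LinearMap.zero_apply, map_zero]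
  by_cases hA : ∀ s ∈ I, ∀ x ∈ Λ, φ ((rho p J s).baseChange A x) = φ x
  · exact ⟨φ, ⟨l0, hl0, hφ0⟩, hA⟩
  · push Not at hA
    obtain ⟨s0, hs0, x0, hx0, hne⟩ := hA
    refine ⟨φ ∘ₗ ((rho p J s0).baseChange A - LinearMap.id), ⟨x0, hx0, ?_⟩, ?_⟩
    · show φ ((rho p J s0).baseChange A x0 - x0) ≠ 0
      rw [map_sub, sub_ne_zero]
      exact hne
    · intro s hs x _
      show φ ((rho p J s0).baseChange A ((rho p J s).baseChange A x) - (rho p J s).baseChange A x)
        = φ ((rho p J s0).baseChange A x - x)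
      have := hkey s0 hs0 s hs x
      rw [map_sub, sub_eq_zero] at this
      exact this

end Main

end Fermat.Agent.ORD.New.FunctionalOfGeo51
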