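/-
Program ORD (S33), brick N1 = New/FunctionalOfGeo (helper51), FINAL FORM on `Spec40.GeoData`.

* `exists_invariant_functional₂` : the abstract core of `FunctionalOfGeo51` with TWO pushes and
  the hypotheses (G2), (G3), (G4) in the literal shapes of `Spec40.GeoData`;
* `functional_of_geoData` : for `D : Spec40.GeoData p N M P`, `A` a flat local `ℤ_[p]`-domain with
  `p ∈ 𝔪_A`, and `Λ ⊆ A ⊗ T_p J₀(N)` an `A`-submodule which is stable under the inertia group of
  `P`, `p`-saturated, killed by both pushes, and on which `σ₀` does not act as the scalar `c₀`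
  modulo `𝔪_A Λ` (`σ₀ ζ = ζ ^ c₀` on `μ_p`): there is an `A`-linear functional on
  `A ⊗ T_p J₀(N)`, nonzero on `Λ` and invariant under inertia on `Λ`.

The Tate module and its Galois action are `TateModule13.TateModule p (JZero N)` and
`TateModule13.rho p (JZero N)` (`= TateJZero13.TJ p N`, `TateJZero13.rhoT p N` by `rfl`), so that the
closure of this file stays small (no `ES/HECKE`, `ES/TOP`).
-/
import Mathlib
import Fermat.Agent.ORD.New.FunctionalOfGeo51
import Fermat.Agent.ORD.Spec.Spec40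

set_option autoImplicit false
set_option linter.unusedSectionVars false

open TensorProduct

noncomputable section

namespace Fermat.Agent.ORD.New.FunctionalOfGeoData51

open Fermat.Agent.ES.J.TateModule13 Fermat.Agent.ORD.New.FunctionalOfGeo51
open Fermat.Agent.ORD.Spec.Spec40 ModularCurve

local notation "tmap" => Fermat.Agent.ES.J.TateModule13.map

section Abstract

variable {p : ℕ} [hp : Fact p.Prime] {J : Type*} [AddCommGroup J]
  {J' : Type*} [AddCommGroup J'] {G : Type*} [Group G] [DistribMulAction G J]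

/-- (G4) with two pushes on the Tate module. -/
theorem sub_smul_mem_range₂ (J1 : AddSubgroup J) (pα pβ : J →+ J') (σ0 : G) (c0 : ℕ)
    (hG4 : ∀ x ∈ J1, p • x = 0 → pα x = 0 → pβ x = 0 → σ0 • x = c0 • x)
    (x : TateModule p J) (hx : x ∈ tateSub J1)
    (hpα : tmap pα x ∈ LinearMap.range (rmul (p : ℤ_[p]) (TateModule p J')))
    (hpβ : tmap pβ x ∈ LinearMap.range (rmul (p : ℤ_[p]) (TateModule p J'))) :
    (rho p J σ0 - (c0 : ℤ_[p]) • (1 : Module.End ℤ_[p] (TateModule p J))) x ∈
      LinearMap.range (rmul (p : ℤ_[p]) (TateModule p J)) := by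
  have key : ∀ (f : J →+ J'),
      tmap f x ∈ LinearMap.range (rmul (p : ℤ_[p]) (TateModule p J')) → f (proj 1 x) = 0 := by
    intro f hf
    obtain ⟨y, hy⟩ := hf
    have hy' : tmap f x = (p : ℤ_[p]) • y := by
      rw [← hy]; rfl
    rw [← proj_map, hy', proj_natCast_smul, proj_succ]
    exact y.zero_apply'
  have h2 : p • proj 1 x = 0 := by
    have := pow_smul_proj 1 x
    rwa [pow_one] at this
  have h3 := hG4 _ (hx 1) h2 (key pα hpα) (key pβ hpβ)
  have h4 : proj 1 ((rho p J σ0 - (c0 : ℤ_[p]) • (1 : Module.End ℤ_[p] (TateModule p J))) x)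
      = 0 := by
    simp only [LinearMap.sub_apply, LinearMap.smul_apply, Module.End.one_apply, map_sub,
      proj_rho, proj_natCast_smul]
    rw [h3, sub_self]
  obtain ⟨z, hz⟩ := (proj_eq_zero_iff 1 _).mp h4
  refine ⟨z, ?_⟩
  rw [hz, pow_one]
  rfl

variable [Module.Finite ℤ_[p] (TateModule p J)]
  {A : Type*} [CommRing A] [IsDomain A] [Algebra ℤ_[p] A] [Module.Flat ℤ_[p] A] [IsLocalRing A]

/-- **N1, abstract core with two pushes**, hypotheses in the shapes of `Spec40.GeoData`. -/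
theorem exists_invariant_functional₂
    (hpA : (p : A) ∈ IsLocalRing.maximalIdeal A)
    (I : Set G) (J0 J1 : AddSubgroup J) (pα pβ : J →+ J')
    (hG2 : ∀ s ∈ I, ∀ (k : ℕ) (x : J), p ^ k • x = 0 → s • x - x ∈ J0)
    (hG3 : ∀ s ∈ I, ∀ (k : ℕ) (x : J), p ^ k • x = 0 → x ∈ J0 → s • x - x ∈ J1)
    (σ0 : G) (hσ0 : σ0 ∈ I) (c0 : ℕ)
    (hG4 : ∀ x ∈ J1, p • x = 0 → pα x = 0 → pβ x = 0 → σ0 • x = c0 • x)
    (Λ : Submodule A (A ⊗[ℤ_[p]] TateModule p J))
    (hstab : ∀ s ∈ I, ∀ x ∈ Λ, (rho p J s).baseChange A x ∈ Λ)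
    (hsat : ∀ x, (p : A) • x ∈ Λ → x ∈ Λ)
    (hpushα : ∀ x ∈ Λ, (tmap pα).baseChange A x = 0)
    (hpushβ : ∀ x ∈ Λ, (tmap pβ).baseChange A x = 0)
    (hns : ¬ ∀ x ∈ Λ, (rho p J σ0).baseChange A x - (c0 : A) • x ∈
      IsLocalRing.maximalIdeal A • Λ) :
    ∃ lam : (A ⊗[ℤ_[p]] TateModule p J) →ₗ[A] A, (∃ x ∈ Λ, lam x ≠ 0) ∧
      ∀ s ∈ I, ∀ x ∈ Λ, lam ((rho p J s).baseChange A x) = lam x := by
  classical
  let Tc : Submodule ℤ_[p] (TateModule p J) := tateSub J1
  let q : TateModule p J →ₗ[ℤ_[p]] (TateModule p J ⧸ Tc) := Tc.mkQ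
  -- Step 1: `Λ` is not contained in the kernel of `A ⊗ q`.
  have h1 : ∃ l0 ∈ Λ, q.baseChange A l0 ≠ 0 := by
    by_contra hcon
    push Not at hcon
    apply hns
    intro x hx
    -- `x` comes from `A ⊗ T^c`
    obtain ⟨μ, hμ⟩ := exists_of_baseChange_eq_zero q x (hcon x hx)
    let π' := (LinearMap.range (rmul (p : ℤ_[p]) (TateModule p J'))).mkQ
    -- first push
    let Rα : LinearMap.ker q →ₗ[ℤ_[p]] _ := π' ∘ₗ (tmap pα) ∘ₗ (LinearMap.ker q).subtype
    have hRα : Rα.baseChange A μ = 0 := by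
      have e : Rα.baseChange A μ =
          π'.baseChange A ((tmap pα).baseChange A ((LinearMap.ker q).subtype.baseChange A μ)) := by
        show (π' ∘ₗ (tmap pα) ∘ₗ (LinearMap.ker q).subtype).baseChange A μ = _
        rw [LinearMap.baseChange_comp, LinearMap.baseChange_comp]
        rfl
      rw [e, hμ, hpushα x hx, map_zero]
    obtain ⟨ν, hν⟩ := exists_of_baseChange_eq_zero Rα μ hRα
    -- second push
    let Rβ : LinearMap.ker Rα →ₗ[ℤ_[p]] _ :=
      π' ∘ₗ (tmap pβ) ∘ₗ (LinearMap.ker q).subtype ∘ₗ (LinearMap.ker Rα).subtype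
    have hRβ : Rβ.baseChange A ν = 0 := by
      have e : Rβ.baseChange A ν =
          π'.baseChange A ((tmap pβ).baseChange A ((LinearMap.ker q).subtype.baseChange A
            ((LinearMap.ker Rα).subtype.baseChange A ν))) := by
        show (π' ∘ₗ (tmap pβ) ∘ₗ (LinearMap.ker q).subtype ∘ₗ
          (LinearMap.ker Rα).subtype).baseChange A ν = _
        rw [LinearMap.baseChange_comp, LinearMap.baseChange_comp, LinearMap.baseChange_comp]
        rfl
      rw [e, hν, hμ, hpushβ x hx, map_zero]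
    obtain ⟨ξ, hξ⟩ := exists_of_baseChange_eq_zero Rβ ν hRβ
    -- the operator `σ0 - c0`
    let E : Module.End ℤ_[p] (TateModule p J) :=
      rho p J σ0 - (c0 : ℤ_[p]) • (1 : Module.End ℤ_[p] (TateModule p J))
    let π := (LinearMap.range (rmul (p : ℤ_[p]) (TateModule p J))).mkQ
    have hzero : π ∘ₗ E ∘ₗ (LinearMap.ker q).subtype ∘ₗ (LinearMap.ker Rα).subtype ∘ₗ
        (LinearMap.ker Rβ).subtype = 0 := by
      apply LinearMap.ext
      intro z
      have hz1 : (((z : LinearMap.ker Rα) : LinearMap.ker q) : TateModule p J) ∈ tateSub J1 := by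
        have h0 : q (((z : LinearMap.ker Rα) : LinearMap.ker q) : TateModule p J) = 0 :=
          ((z : LinearMap.ker Rα) : LinearMap.ker q).2
        exact (Submodule.Quotient.mk_eq_zero Tc).mp h0
      have hz2 : tmap pα (((z : LinearMap.ker Rα) : LinearMap.ker q) : TateModule p J) ∈
          LinearMap.range (rmul (p : ℤ_[p]) (TateModule p J')) := by
        have := (z : LinearMap.ker Rα).2
        rw [LinearMap.mem_ker] at this
        exact (Submodule.Quotient.mk_eq_zero _).mp this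
      have hz3 : tmap pβ (((z : LinearMap.ker Rα) : LinearMap.ker q) : TateModule p J) ∈
          LinearMap.range (rmul (p : ℤ_[p]) (TateModule p J')) := by
        have := z.2
        rw [LinearMap.mem_ker] at this
        exact (Submodule.Quotient.mk_eq_zero _).mp this
      have := sub_smul_mem_range₂ J1 pα pβ σ0 c0 hG4 _ hz1 hz2 hz3
      exact (Submodule.Quotient.mk_eq_zero _).mpr this
    have hEx : π.baseChange A (E.baseChange A x) = 0 := by
      rw [← hμ, ← hν, ← hξ]
      have e : π.baseChange A (E.baseChange A ((LinearMap.ker q).subtype.baseChange A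
          ((LinearMap.ker Rα).subtype.baseChange A ((LinearMap.ker Rβ).subtype.baseChange A ξ)))) =
          (π ∘ₗ E ∘ₗ (LinearMap.ker q).subtype ∘ₗ (LinearMap.ker Rα).subtype ∘ₗ
            (LinearMap.ker Rβ).subtype).baseChange A ξ := by
        rw [LinearMap.baseChange_comp, LinearMap.baseChange_comp, LinearMap.baseChange_comp,
          LinearMap.baseChange_comp]
        rfl
      rw [e, hzero, LinearMap.baseChange_zero, LinearMap.zero_apply]
    obtain ⟨μ', hμ'⟩ := exists_of_baseChange_mkQ_eq_zero (p : ℤ_[p]) _ hEx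
    have hEx' : E.baseChange A x = (rho p J σ0).baseChange A x - (c0 : A) • x := by
      show (rho p J σ0 - (c0 : ℤ_[p]) • (1 : Module.End ℤ_[p] (TateModule p J))).baseChange A x = _
      rw [LinearMap.baseChange_sub, LinearMap.baseChange_smul, LinearMap.sub_apply,
        LinearMap.smul_apply]
      congr 1
      have : (1 : Module.End ℤ_[p] (TateModule p J)).baseChange A x = x := by
        show (LinearMap.id : TateModule p J →ₗ[ℤ_[p]] TateModule p J).baseChange A x = x
        rw [LinearMap.baseChange_id]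
        rfl
      rw [this, ← algebraMap_smul A (c0 : ℤ_[p]) x, map_natCast]
    have hp' : algebraMap ℤ_[p] A (p : ℤ_[p]) = (p : A) := map_natCast _ _
    rw [hp'] at hμ'
    have hmem : E.baseChange A x ∈ Λ := by
      rw [hEx']
      exact Λ.sub_mem (hstab σ0 hσ0 x hx) (Λ.smul_mem _ hx)
    have hμ'Λ : μ' ∈ Λ := hsat μ' (hμ' ▸ hmem)
    rw [← hEx', hμ']
    exact Submodule.smul_mem_smul hpA hμ'Λ
  obtain ⟨l0, hl0, hq0⟩ := h1
  -- Step 2: a coordinate of `A ⊗ (T / T^c)` which does not vanish at `l0`.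
  haveI : Module.Finite ℤ_[p] (TateModule p J ⧸ Tc) := inferInstance
  haveI : Module.Free ℤ_[p] (TateModule p J ⧸ Tc) := Module.free_of_finite_type_torsion_free'
  let b := Module.Free.chooseBasis A (A ⊗[ℤ_[p]] (TateModule p J ⧸ Tc))
  obtain ⟨i, hi⟩ : ∃ i, b.repr (q.baseChange A l0) i ≠ 0 := by
    by_contra h
    push Not at h
    apply hq0
    apply b.repr.injective
    ext i
    rw [h i, map_zero, Finsupp.zero_apply]
  let φ : (A ⊗[ℤ_[p]] TateModule p J) →ₗ[A] A := (b.coord i) ∘ₗ (q.baseChange A)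
  have hφ0 : φ l0 ≠ 0 := hi
  -- `φ` kills `(s - 1)(s' - 1)`
  have hkey : ∀ s ∈ I, ∀ s' ∈ I, ∀ m : A ⊗[ℤ_[p]] TateModule p J,
      φ ((rho p J s).baseChange A ((rho p J s').baseChange A m) - (rho p J s').baseChange A m
        - ((rho p J s).baseChange A m - m)) = 0 := by
    intro s hs s' hs' m
    have hz : q ∘ₗ (rho p J s - 1) ∘ₗ (rho p J s' - 1) = 0 := by
      apply LinearMap.ext
      intro x
      exact (Submodule.Quotient.mk_eq_zero _).mpr
        (sub_one_sub_one_mem J0 J1 s s' (fun y ⟨k, hk⟩ => hG2 s' hs' k y hk)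
          (fun y hy ⟨k, hk⟩ => hG3 s hs k y hk hy) x)
    have e : (rho p J s).baseChange A ((rho p J s').baseChange A m)
        - (rho p J s').baseChange A m - ((rho p J s).baseChange A m - m) =
        ((rho p J s - 1).baseChange A) (((rho p J s' - 1).baseChange A) m) := by
      have h1' : ∀ (g : G) (y : A ⊗[ℤ_[p]] TateModule p J),
          (rho p J g - 1).baseChange A y = (rho p J g).baseChange A y - y := by
        intro g y
        rw [LinearMap.baseChange_sub, LinearMap.sub_apply]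
        congr 1
        show (LinearMap.id : TateModule p J →ₗ[ℤ_[p]] TateModule p J).baseChange A y = y
        rw [LinearMap.baseChange_id]
        rfl
      rw [h1', h1', map_sub]
      abel
    rw [e]
    show (b.coord i) (q.baseChange A (((rho p J s - 1).baseChange A)
      (((rho p J s' - 1).baseChange A) m))) = 0
    have e2 : q.baseChange A (((rho p J s - 1).baseChange A)
        (((rho p J s' - 1).baseChange A) m)) =
        (q ∘ₗ (rho p J s - 1) ∘ₗ (rho p J s' - 1)).baseChange A m := by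
      rw [LinearMap.baseChange_comp, LinearMap.baseChange_comp]
      rfl
    rw [e2, hz, LinearMap.baseChange_zero, LinearMap.zero_apply, map_zero]
  by_cases hA : ∀ s ∈ I, ∀ x ∈ Λ, φ ((rho p J s).baseChange A x) = φ x
  · exact ⟨φ, ⟨l0, hl0, hφ0⟩, hA⟩
  · push Not at hA
    obtain ⟨s0, hs0, x0, hx0, hne⟩ := hA
    refine ⟨φ ∘ₗ ((rho p J s0).baseChange A - LinearMap.id), ⟨x0, hx0, ?_⟩, ?_⟩
    · show φ ((rho p J s0).baseChange A x0 - x0) ≠ 0
      rw [map_sub, sub_ne_zero]
      exact hne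
    · intro s hs x _
      show φ ((rho p J s0).baseChange A ((rho p J s).baseChange A x) - (rho p J s).baseChange A x)
        = φ ((rho p J s0).baseChange A x - x)
      have := hkey s0 hs0 s hs x
      rw [map_sub, sub_eq_zero] at this
      exact this

end Abstract

/-! ### The final form on `Spec40.GeoData` -/

section Geo

local notation "Qb" => AlgebraicClosure ℚ
local notation "GQ" => (AlgebraicClosure ℚ ≃ₐ[ℚ] AlgebraicClosure ℚ)

variable {p : ℕ} [hp : Fact p.Prime] {N M : ℕ} [NeZero N] [NeZero M]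
  {A : Type*} [CommRing A] [IsDomain A] [Algebra ℤ_[p] A] [Module.Flat ℤ_[p] A] [IsLocalRing A]

/-- **Brick N1** (`New/FunctionalOfGeo`): a nonzero inertia-invariant functional on a `p`-new
eigen-submodule, from the geometric input `Spec40.GeoData`. -/
theorem functional_of_geoData (P : ValuationSubring Qb) (D : GeoData p N M P)
    [Module.Finite ℤ_[p] (TateModule p (JZero N))]
    (hpA : (p : A) ∈ IsLocalRing.maximalIdeal A)
    (σ0 : GQ) (hσ0 : σ0 ∈ P.inertiaSubgroupIn ℚ) (c0 : ℕ)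
    (hc0 : ∀ ζ : Qb, ζ ^ p = 1 → σ0 ζ = ζ ^ c0)
    (Λ : Submodule A (A ⊗[ℤ_[p]] TateModule p (JZero N)))
    (hstab : ∀ s ∈ P.inertiaSubgroupIn ℚ, ∀ x ∈ Λ, (rho p (JZero N) s).baseChange A x ∈ Λ)
    (hsat : ∀ x, (p : A) • x ∈ Λ → x ∈ Λ)
    (hpushα : ∀ x ∈ Λ, (tmap D.pα).baseChange A x = 0)
    (hpushβ : ∀ x ∈ Λ, (tmap D.pβ).baseChange A x = 0)
    (hns : ¬ ∀ x ∈ Λ, (rho p (JZero N) σ0).baseChange A x - (c0 : A) • x ∈
      IsLocalRing.maximalIdeal A • Λ) :
    ∃ lam : (A ⊗[ℤ_[p]] TateModule p (JZero N)) →ₗ[A] A, (∃ x ∈ Λ, lam x ≠ 0) ∧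
      ∀ s ∈ P.inertiaSubgroupIn ℚ, ∀ x ∈ Λ,
        lam ((rho p (JZero N) s).baseChange A x) = lam x :=
  exists_invariant_functional₂ hpA (↑(P.inertiaSubgroupIn ℚ) : Set GQ) D.J0 D.J1 D.pα D.pβ
    (fun s hs k x hx => D.G2 s hs k x hx) (fun s hs k x hx hx0 => D.G3 s hs k x hx hx0)
    σ0 hσ0 c0 (fun x hx hpx hα hβ => D.G4 x hx hpx hα hβ σ0 hσ0 c0 hc0)
    Λ hstab hsat hpushα hpushβ hns

end Geo

/-- A domain containing `ℤ_[p]` is flat over it (for the `[Module.Flat ℤ_[p] A]` hypothesis of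
`functional_of_geoData`; applies to `A = T ⧸ P`, `P` a minimal prime of `T`). -/
theorem flat_of_injective {p : ℕ} [Fact p.Prime] {A : Type*} [CommRing A] [IsDomain A]
    [Algebra ℤ_[p] A] (h : Function.Injective (algebraMap ℤ_[p] A)) : Module.Flat ℤ_[p] A := by
  rw [Module.Flat.flat_iff_torsion_eq_bot_of_isBezout, eq_bot_iff]
  rintro m ⟨⟨r, hr⟩, hm⟩
  have hr0 : r ≠ 0 := nonZeroDivisors.ne_zero hr
  have hm' : algebraMap ℤ_[p] A r * m = 0 := by
    have : r • m = 0 := hm
    rwa [Algebra.smul_def] at this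
  rcases mul_eq_zero.mp hm' with h1 | h1
  · exact absurd ((map_eq_zero_iff _ h).mp h1) hr0
  · exact (Submodule.mem_bot _).mpr h1

end Fermat.Agent.ORD.New.FunctionalOfGeoData51
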