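/-
Program ORD (S33), brick N1 add-on (helper51): the NEW POINT, end to end in trace form.

`FunctionalOfGeoData51.functional_of_geoData` (N1) produces a functional on `A ⊗ T_p J₀(N)`;
brick A3 (`CHFunctional40`) consumes a functional on a CH-module given as a TYPE with a monoid
homomorphism `ρΛ : G_ℚ →* End_A Λ`.  This file glues the two, so that brick Z only has to plug
A1 (the eigen-submodule with `rhoLam` and `hW`), D1 (the pushes kill it), A7(a) (`hns`) and G*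
(`GeoData`):

* `conj_mem_inertiaSubgroupIn` : the inertia group of the Prelude is normalised by the
  decomposition group (Mathlib only);
* `mem_smul_top_iff` : `x ∈ 𝔪 • (⊤ : Submodule A ↥Λ) ↔ (x : V) ∈ 𝔪 • Λ` (the bridge between the
  TYPE form of A7(a) and the SUBMODULE form of N1's `hns`);
* `traceIdent_of_functional` : A3 for a submodule `Λ` of an ambient module and a functional on
  the ambient module which is nonzero on `Λ` and `I`-invariant on `Λ`;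
* `newPoint_identities` / `newPoint_traceIdent` : `GeoData` + (`Λ` killed by both pushes,
  saturated, CH, `σ₀` not the scalar `c₀` on `Λ / 𝔪 Λ`) ⟹ the trace identities (I1), (I2) at `P`
  (resp. `Spec40.TraceIdent`).
-/
import Mathlib
import Fermat.Agent.ORD.New.FunctionalOfGeoData51

set_option autoImplicit false
set_option linter.unusedSectionVars false

open TensorProduct

noncomputable section

namespace Fermat.Agent.ORD.New.NewPoint51

open Fermat.Agent.ES.J.TateModule13 Fermat.Agent.ORD.New.FunctionalOfGeoData51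
open Fermat.Agent.ORD.Alg.CHFunctional40
open Fermat.Agent.ORD.Spec.Spec40 ModularCurve

local notation "tmap" => Fermat.Agent.ES.J.TateModule13.map

/-! ### 1. Inertia is normalised by the decomposition group -/

/-- The Prelude's `inertiaSubgroupIn` is normalised by the decomposition group. -/
theorem conj_mem_inertiaSubgroupIn {K : Type*} {L : Type*} [Field K] [Field L] [Algebra K L]
    (P : ValuationSubring L) {h σ : L ≃ₐ[K] L} (hh : h ∈ P.decompositionSubgroup K)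
    (hσ : σ ∈ P.inertiaSubgroupIn K) : h⁻¹ * σ * h ∈ P.inertiaSubgroupIn K := by
  obtain ⟨τ, hτ, rfl⟩ := hσ
  have hn : (P.inertiaSubgroup K).Normal := by
    unfold ValuationSubring.inertiaSubgroup
    infer_instance
  refine ⟨(⟨h, hh⟩ : P.decompositionSubgroup K)⁻¹ * τ * ⟨h, hh⟩, ?_, rfl⟩
  have := hn.conj_mem τ hτ (⟨h, hh⟩ : P.decompositionSubgroup K)⁻¹
  rwa [inv_inv] at this

/-- an element of the inertia group lies in the decomposition group. -/
theorem mem_decomposition_of_mem_inertiaIn {K : Type*} {L : Type*} [Field K] [Field L]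
    [Algebra K L] (P : ValuationSubring L) {σ : L ≃ₐ[K] L} (hσ : σ ∈ P.inertiaSubgroupIn K) :
    σ ∈ P.decompositionSubgroup K := by
  obtain ⟨τ, _, rfl⟩ := hσ
  exact τ.2

/-! ### 2. `𝔪 • ⊤` in a submodule seen as a type -/

section Smul

variable {A : Type*} [CommRing A] {V : Type*} [AddCommGroup V] [Module A V]

/-- `𝔪 • (⊤ : Submodule A ↥Λ)` is `𝔪 • Λ`, read inside `Λ`. -/
theorem map_subtype_smul_top (𝔪 : Ideal A) (Λ : Submodule A V) :
    (𝔪 • (⊤ : Submodule A Λ)).map Λ.subtype = 𝔪 • Λ := by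
  rw [Submodule.map_smul'', Submodule.map_top, Submodule.range_subtype]

theorem mem_smul_top_iff (𝔪 : Ideal A) (Λ : Submodule A V) (x : Λ) :
    x ∈ 𝔪 • (⊤ : Submodule A Λ) ↔ (x : V) ∈ 𝔪 • Λ := by
  rw [← map_subtype_smul_top 𝔪 Λ]
  constructor
  · intro hx
    exact ⟨x, hx, rfl⟩
  · rintro ⟨y, hy, hyx⟩
    have : y = x := Subtype.ext hyx
    rwa [this] at hy

end Smul

/-! ### 3. A3 for a submodule and an ambient functional -/

section A3

variable {G : Type*} [Group G] {A : Type*} [CommRing A] [IsDomain A]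
  {V : Type*} [AddCommGroup V] [Module A V]

/-- **A3 on a submodule**: `Λ ⊆ V` with a `G`-action `ρΛ` satisfying Cayley–Hamilton for `(t, δ)`,
`lam : V → A` nonzero on `Λ` and `I`-invariant on `Λ`, `I` normalised by `D`: the trace
identities (I1) and (I2) (for every `σ₀ ∈ I`). -/
theorem traceIdent_of_functional (Λ : Submodule A V) (ρΛ : G →* Module.End A Λ)
    (t : G → A) (δ : G →* A)
    (hW : ∀ g : G, ρΛ g + δ g • ρΛ g⁻¹ = t g • (1 : Module.End A Λ))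
    (I D : Subgroup G) (hnorm : ∀ h ∈ D, ∀ σ ∈ I, h⁻¹ * σ * h ∈ I)
    (lam : V →ₗ[A] A) (hlam : ∃ x ∈ Λ, lam x ≠ 0)
    (hinv : ∀ σ ∈ I, ∀ x : Λ, lam (ρΛ σ x : V) = lam (x : V)) :
    (∀ h ∈ I, t h = 1 + δ h) ∧
      ∀ σ₀ ∈ I, ∀ h ∈ D, ∀ g : G, (δ σ₀ - 1) * Dfun t δ σ₀ (h * g) =
        Dfun t δ σ₀ h * Dfun t δ σ₀ g := by
  have hlam' : lam ∘ₗ Λ.subtype ≠ 0 := by
    obtain ⟨x, hx, hne⟩ := hlam
    intro h0
    apply hne
    have := congrArg (fun f => f ⟨x, hx⟩) h0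
    simpa using this
  have hinv' : ∀ σ ∈ I, ∀ x : Λ, (lam ∘ₗ Λ.subtype) (ρΛ σ x) = (lam ∘ₗ Λ.subtype) x :=
    fun σ hσ x => hinv σ hσ x
  refine ⟨fun h hh => trace_eq_one_add ρΛ t δ hW I (lam ∘ₗ Λ.subtype) hlam' hinv' h hh,
    fun σ₀ hσ₀ h hh g => Dfun_mul ρΛ t δ hW I (lam ∘ₗ Λ.subtype) hlam' hinv' D hnorm σ₀ hσ₀ h hh g⟩

end A3

/-! ### 4. The new point -/

section Geo

local notation "Qb" => AlgebraicClosure ℚ
local notation "GQ" => (AlgebraicClosure ℚ ≃ₐ[ℚ] AlgebraicClosure ℚ)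

variable {p : ℕ} [hp : Fact p.Prime] {N M : ℕ} [NeZero N] [NeZero M]
  {A : Type*} [CommRing A] [IsDomain A] [Algebra ℤ_[p] A] [Module.Flat ℤ_[p] A] [IsLocalRing A]

/-- **The new point, in trace form.**  `D : GeoData p N M P`; `Λ ⊆ A ⊗ T_p J₀(N)` a `p`-saturated
`A`-submodule with a `G_ℚ`-action `ρΛ` induced by the Galois action on the Tate module, satisfying
Cayley–Hamilton for `(t, δ)`, killed by both pushes, and such that `σ₀` (which acts on `μ_p`
through `ζ ↦ ζ ^ c₀`) is NOT the scalar `c₀` on `Λ / 𝔪_A Λ` (A7(a), in its type form).  Then the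
trace identities (I1), (I2) hold at `P`. -/
theorem newPoint_identities (P : ValuationSubring Qb) (D : GeoData p N M P)
    [Module.Finite ℤ_[p] (TateModule p (JZero N))]
    (hpA : (p : A) ∈ IsLocalRing.maximalIdeal A)
    (Λ : Submodule A (A ⊗[ℤ_[p]] TateModule p (JZero N)))
    (ρΛ : GQ →* Module.End A Λ)
    (hρΛ : ∀ (g : GQ) (x : Λ),
      ((ρΛ g x : Λ) : A ⊗[ℤ_[p]] TateModule p (JZero N)) =
        (rho p (JZero N) g).baseChange A (x : A ⊗[ℤ_[p]] TateModule p (JZero N)))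
    (hsat : ∀ x, (p : A) • x ∈ Λ → x ∈ Λ)
    (hpushα : ∀ x ∈ Λ, (tmap D.pα).baseChange A x = 0)
    (hpushβ : ∀ x ∈ Λ, (tmap D.pβ).baseChange A x = 0)
    (t : GQ → A) (δ : GQ →* A)
    (hW : ∀ g : GQ, ρΛ g + δ g • ρΛ g⁻¹ = t g • (1 : Module.End A Λ))
    (σ₀ : GQ) (hσ₀ : σ₀ ∈ P.inertiaSubgroupIn ℚ) (c₀ : ℕ)
    (hc₀ : ∀ ζ : Qb, ζ ^ p = 1 → σ₀ ζ = ζ ^ c₀)
    (hns : ¬ ∀ x : Λ, ρΛ σ₀ x - (c₀ : A) • x ∈
      IsLocalRing.maximalIdeal A • (⊤ : Submodule A Λ)) :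
    (∀ h ∈ P.inertiaSubgroupIn ℚ, t h = 1 + δ h) ∧
      ∀ σ₁ ∈ P.inertiaSubgroupIn ℚ, ∀ h ∈ P.decompositionSubgroup ℚ, ∀ g : GQ,
        (δ σ₁ - 1) * Dfun t δ σ₁ (h * g) = Dfun t δ σ₁ h * Dfun t δ σ₁ g := by
  have hstab : ∀ s ∈ P.inertiaSubgroupIn ℚ, ∀ x ∈ Λ,
      (rho p (JZero N) s).baseChange A x ∈ Λ := by
    intro s _ x hx
    have := hρΛ s ⟨x, hx⟩
    rw [← this]
    exact (ρΛ s ⟨x, hx⟩).2
  have hns' : ¬ ∀ x ∈ Λ, (rho p (JZero N) σ₀).baseChange A x - (c₀ : A) • x ∈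
      IsLocalRing.maximalIdeal A • Λ := by
    intro hall
    apply hns
    intro x
    rw [mem_smul_top_iff]
    have := hall x x.2
    rw [← hρΛ σ₀ x] at this
    exact this
  obtain ⟨lam, hlam, hinv⟩ := functional_of_geoData P D hpA σ₀ hσ₀ c₀ hc₀ Λ hstab hsat
    hpushα hpushβ hns'
  refine traceIdent_of_functional Λ ρΛ t δ hW (P.inertiaSubgroupIn ℚ)
    (P.decompositionSubgroup ℚ) (fun h hh σ hσ => conj_mem_inertiaSubgroupIn P hh hσ) lam hlam ?_
  intro σ hσ x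
  rw [hρΛ σ x]
  exact hinv σ hσ x x.2

/-- The same, in the literal shape `Spec40.TraceIdent` for a representation `ρ` on any `A`-module
`W` (think `ρ = ρ_A`, the base change of the Hecke–Galois representation to `A = T ⧸ P`), the CH
relation on `Λ` being w.r.t. the trace and determinant of `ρ`. -/
theorem newPoint_traceIdent (P : ValuationSubring Qb) (D : GeoData p N M P)
    [Module.Finite ℤ_[p] (TateModule p (JZero N))]
    (hpA : (p : A) ∈ IsLocalRing.maximalIdeal A)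
    {W : Type*} [AddCommGroup W] [Module A W] (ρ : GQ →* Module.End A W)
    (Λ : Submodule A (A ⊗[ℤ_[p]] TateModule p (JZero N)))
    (ρΛ : GQ →* Module.End A Λ)
    (hρΛ : ∀ (g : GQ) (x : Λ),
      ((ρΛ g x : Λ) : A ⊗[ℤ_[p]] TateModule p (JZero N)) =
        (rho p (JZero N) g).baseChange A (x : A ⊗[ℤ_[p]] TateModule p (JZero N)))
    (hsat : ∀ x, (p : A) • x ∈ Λ → x ∈ Λ)
    (hpushα : ∀ x ∈ Λ, (tmap D.pα).baseChange A x = 0)
    (hpushβ : ∀ x ∈ Λ, (tmap D.pβ).baseChange A x = 0)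
    (hW : ∀ g : GQ, ρΛ g + detOf ρ g • ρΛ g⁻¹ = trOf ρ g • (1 : Module.End A Λ))
    (σ₀ : GQ) (hσ₀ : σ₀ ∈ P.inertiaSubgroupIn ℚ) (c₀ : ℕ)
    (hc₀ : ∀ ζ : Qb, ζ ^ p = 1 → σ₀ ζ = ζ ^ c₀)
    (hns : ¬ ∀ x : Λ, ρΛ σ₀ x - (c₀ : A) • x ∈
      IsLocalRing.maximalIdeal A • (⊤ : Submodule A Λ)) :
    TraceIdent ρ (P.inertiaSubgroupIn ℚ) (P.decompositionSubgroup ℚ) σ₀ := by
  obtain ⟨h1, h2⟩ := newPoint_identities P D hpA Λ ρΛ hρΛ hsat hpushα hpushβ (trOf ρ) (detOf ρ)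
    hW σ₀ hσ₀ c₀ hc₀ hns
  exact ⟨h1, h2 σ₀ hσ₀⟩

end Geo

end Fermat.Agent.ORD.New.NewPoint51
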